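import Fermat.Agent.DefRing.Compactness
import Fermat.Agent.DefRing.PowerSeries
import Mathlib.Order.KonigLemma
import Mathlib.Data.Matrix.Basic
import Mathlib.RingTheory.MvPowerSeries.Equiv
import Mathlib.RingTheory.DiscreteValuationRing.Basic
import Mathlib.Algebra.Polynomial.Eval.Defs
import Mathlib.Algebra.Polynomial.Monic

/-!
# Patching data for level lowering: commuting matrices with polynomial identities

A level of the patching system (`PatchData`, `PatchData.Valid`) consists of matrices over a quotient
of `S = O⟦Y₁,…,Y_r⟧` which describe, on the twisted (`χ`) and the untwisted module, the local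
coordinates of the Galois representation at the level lowering primes.  Identities which are only
known at the points of a Hecke algebra are required up to nilpotents.  Only finitely many matrices
and identities occur, so compactness produces a datum over `S` itself
(`exists_valid_of_forall_level`), to which `LevelLowering.PatchContradiction` applies.
-/

set_option autoImplicit false

noncomputable section

open IsLocalRing MvPowerSeries

namespace FLTAgent.LevelLowering

/-- The variables: for a site of split type (`α`) the entries of `A` and `B`, for a site of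
non-split type (`β`) the pair `h, μ`, and global variables (`γ`). -/
inductive PVar (α β γ : Type) : Type
  | vA (i : α) (j : Fin 3) : PVar α β γ
  | vB (i : α) (j : Fin 3) : PVar α β γ
  | vh (i : β) : PVar α β γ
  | vmu (i : β) : PVar α β γ
  | vx (k : γ) : PVar α β γ

instance PVar.instFinite {α β γ : Type} [Finite α] [Finite β] [Finite γ] :
    Finite (PVar α β γ) := by
  refine Finite.of_surjective
    (fun x : (α × Fin 3) ⊕ (α × Fin 3) ⊕ β ⊕ β ⊕ γ => match x with
      | .inl (i, j) => PVar.vA i j
      | .inr (.inl (i, j)) => PVar.vB i j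
      | .inr (.inr (.inl i)) => PVar.vh i
      | .inr (.inr (.inr (.inl i))) => PVar.vmu i
      | .inr (.inr (.inr (.inr k))) => PVar.vx k) ?_
  intro v
  cases v with
  | vA i j => exact ⟨.inl (i, j), rfl⟩
  | vB i j => exact ⟨.inr (.inl (i, j)), rfl⟩
  | vh i => exact ⟨.inr (.inr (.inl i)), rfl⟩
  | vmu i => exact ⟨.inr (.inr (.inr (.inl i))), rfl⟩
  | vx k => exact ⟨.inr (.inr (.inr (.inr k))), rfl⟩

/-- The commuting family on the twisted module: the variables and the coefficients used to
express the squares of the diamond variables. -/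
abbrev FamIdx (r : ℕ) (α β γ : Type) : Type := PVar α β γ ⊕ (Fin r × Option (PVar α β γ))

/-- Square matrices of size `d` over `R`. -/
abbrev Mat (d : ℕ) (R : Type) : Type := Matrix (Fin d) (Fin d) R

/-- A datum over `R`. -/
structure PatchData (r d : ℕ) (α β γ : Type) (R : Type) where
  /-- the commuting family on the twisted module -/
  F : FamIdx r α β γ → Mat d R
  /-- witnesses of topological nilpotence -/
  Z : PVar α β γ → Option (Fin r) → Mat d R
  /-- `h = q(A)` on the untwisted module -/
  H1 : α ⊕ β → Mat d R
  /-- the element separating the modular points at `Y = 0` -/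
  U : α ⊕ β → Mat d R
  /-- witnesses of vanishing at `Y = 0` -/
  W : α ⊕ β → Fin r → Mat d R
  /-- witnesses of the congruence between the two modules -/
  L : α ⊕ β → Mat d R

namespace PatchData

variable {r d : ℕ} {α β γ : Type} {R R' : Type}

/-- The value of a variable. -/
abbrev V (D : PatchData r d α β γ R) (v : PVar α β γ) : Mat d R := D.F (.inl v)

/-- Transport along a map of coefficients. -/
def map (f : R → R') (D : PatchData r d α β γ R) : PatchData r d α β γ R' where
  F i := (D.F i).map f
  Z v o := (D.Z v o).map f
  H1 i := (D.H1 i).map f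
  U i := (D.U i).map f
  W i t := (D.W i t).map f
  L i := (D.L i).map f

theorem ext_fields {D E : PatchData r d α β γ R} (h1 : D.F = E.F) (h2 : D.Z = E.Z)
    (h3 : D.H1 = E.H1) (h4 : D.U = E.U) (h5 : D.W = E.W) (h6 : D.L = E.L) : D = E := by
  cases D; cases E; congr

instance instFinite [Finite R] [Finite α] [Finite β] [Finite γ] :
    Finite (PatchData r d α β γ R) := by
  refine Finite.of_injective
    (fun D => (D.F, D.Z, D.H1, D.U, D.W, D.L)) ?_
  rintro ⟨⟩ ⟨⟩ h
  simp only [Prod.mk.injEq] at h
  obtain ⟨rfl, rfl, rfl, rfl, rfl, rfl⟩ := h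
  rfl

end PatchData

/-- The constants of a patching system: a uniformiser, a nilpotence exponent and, at each site,
a polynomial `f` killing `q(B)` (whose roots are the squared half differences of the possible
inertia eigenvalues), the value `c` of `h` at Steinberg points, and the value `-e` of
the separating element. -/
structure PatchParams (O : Type) [Semiring O] (α β : Type) where
  /-- a uniformiser -/
  lam : O
  /-- nilpotence exponent -/
  D : ℕ
  /-- kills `q(B)` on the twisted module -/
  f : α ⊕ β → Polynomial O
  /-- the value of `h` at Steinberg points -/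
  c : α ⊕ β → O
  /-- minus the value of the separating element at the points over `Y = 0` -/
  e : α ⊕ β → O

variable {O : Type} [CommRing O] {r d : ℕ} {α β γ : Type}

/-- The image in `R` of a constant. -/
abbrev cst (R : Type) [CommRing R] [Algebra (MvPowerSeries (Fin r) O) R] (o : O) : R :=
  algebraMap (MvPowerSeries (Fin r) O) R (C o)

/-- The image in `R` of a diamond variable. -/
abbrev yv (O : Type) [CommRing O] {r : ℕ} (R : Type) [CommRing R]
    [Algebra (MvPowerSeries (Fin r) O) R] (t : Fin r) : R :=
  algebraMap (MvPowerSeries (Fin r) O) R (X t)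

/-- The scalar matrices with entries the images of constants. -/
def cstMat (d r : ℕ) (R : Type) [CommRing R] [Algebra (MvPowerSeries (Fin r) O) R] :
    O →+* Mat d R :=
  (algebraMap R (Mat d R)).comp ((algebraMap (MvPowerSeries (Fin r) O) R).comp C)

/-- The quantity `h` at a site on the twisted module. -/
def PatchData.hChi {R : Type} [CommRing R] (D : PatchData r d α β γ R) : α ⊕ β → Mat d R
  | .inl a => D.V (.vA a 0) * D.V (.vA a 0) + D.V (.vA a 1) * D.V (.vA a 2)
  | .inr b => D.V (.vh b)

open scoped Classical in
/-- The identities satisfied by a datum. -/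
structure PatchData.Valid (P : PatchParams O α β) [Fintype α] [Fintype β] [Fintype γ]
    [Fintype (PVar α β γ)]
    {R : Type} [CommRing R] [Algebra (MvPowerSeries (Fin r) O) R]
    (D : PatchData r d α β γ R) : Prop where
  comm : ∀ i j, D.F i * D.F j = D.F j * D.F i
  gen : ∀ t, yv O R t ^ P.D • (1 : Mat d R) =
    cst (r := r) R P.lam • D.F (.inr (t, none)) + ∑ v, D.V v * D.F (.inr (t, some v))
  nil : ∀ v, D.V v ^ P.D = cst (r := r) R P.lam • D.Z v none + ∑ t, yv O R t • D.Z v (some t)
  qB : ∀ a, (P.f (.inl a)).eval₂ (cstMat d r R)
    (D.V (.vB a 0) * D.V (.vB a 0) + D.V (.vB a 1) * D.V (.vB a 2)) = 0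
  cross : ∀ a i k, (D.V (.vA a i) * D.V (.vB a k) - D.V (.vA a k) * D.V (.vB a i)) ^ P.D = 0
  muh : ∀ b, (P.f (.inr b)).eval₂ (cstMat d r R)
    (D.V (.vmu b) * D.V (.vmu b) * D.V (.vh b)) = 0
  commOne : ∀ i, D.U i * D.H1 i = D.H1 i * D.U i
  steinberg : ∀ i, (D.U i * (D.H1 i - cst (r := r) R (P.c i) • 1)) ^ P.D = 0
  atZero : ∀ i, (cst (r := r) R (P.e i) • (1 : Mat d R) + D.U i) ^ P.D = ∑ t, yv O R t • D.W i t
  congr : ∀ i, D.hChi i - D.H1 i = cst (r := r) R P.lam • D.L i

section Map

variable [Fintype α] [Fintype β] [Fintype γ] [Fintype (PVar α β γ)] {P : PatchParams O α β}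
  {R R' : Type} [CommRing R] [CommRing R'] [Algebra (MvPowerSeries (Fin r) O) R]
  [Algebra (MvPowerSeries (Fin r) O) R'] (f : R →ₐ[MvPowerSeries (Fin r) O] R')

theorem cst_map (o : O) : f (cst (r := r) R o) = cst (r := r) R' o := f.commutes _

theorem yv_map (t : Fin r) : f (yv O R t) = yv O R' t := f.commutes _

omit [Fintype α] [Fintype β] [Fintype γ] [Fintype (PVar α β γ)] in
theorem mapMatrix_eval₂ (p : Polynomial O) (M : Mat d R) :
    f.toRingHom.mapMatrix (p.eval₂ (cstMat d r R) M) =
      p.eval₂ (cstMat d r R') (f.toRingHom.mapMatrix M) := by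
  rw [Polynomial.hom_eval₂]
  congr 1
  ext o i j
  simp [cstMat, Matrix.algebraMap_eq_diagonal, Matrix.diagonal_apply, apply_ite f]

theorem mapMatrix_smul (a : R) (M : Mat d R) :
    f.toRingHom.mapMatrix (a • M) = f a • f.toRingHom.mapMatrix M := by
  ext i j
  simp

omit [Fintype α] [Fintype β] [Fintype γ] [Fintype (PVar α β γ)] in
theorem hChi_map (D : PatchData r d α β γ R) (i : α ⊕ β) :
    (D.map f).hChi i = f.toRingHom.mapMatrix (D.hChi i) := by
  cases i
  · simp only [PatchData.hChi, PatchData.V, PatchData.map, map_add, map_mul]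
    rfl
  · rfl

theorem PatchData.Valid.map {D : PatchData r d α β γ R} (h : D.Valid P) : (D.map f).Valid P := by
  classical
  have key : ∀ {a b : Mat d R}, a = b → f.toRingHom.mapMatrix a = f.toRingHom.mapMatrix b :=
    fun e => by rw [e]
  constructor
  · intro i j; simpa [PatchData.map] using key (h.comm i j)
  · intro t
    have := key (h.gen t)
    simp only [map_add, map_sum, map_mul, map_pow, map_one, mapMatrix_smul, cst_map, yv_map] at this
    simpa [PatchData.map] using this
  · intro v
    have := key (h.nil v)
    simp only [map_add, map_sum, map_pow, mapMatrix_smul, cst_map, yv_map] at this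
    simpa [PatchData.map] using this
  · intro a
    have := key (h.qB a)
    simp only [mapMatrix_eval₂, map_add, map_mul, map_zero] at this
    simpa [PatchData.map] using this
  · intro a i k
    have := key (h.cross a i k)
    simp only [map_sub, map_mul, map_pow, map_zero] at this
    simpa [PatchData.map] using this
  · intro b
    have := key (h.muh b)
    simp only [mapMatrix_eval₂, map_mul, map_zero] at this
    simpa [PatchData.map] using this
  · intro i; simpa [PatchData.map] using key (h.commOne i)
  · intro i
    have := key (h.steinberg i)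
    simp only [map_sub, map_mul, map_pow, map_one, map_zero, mapMatrix_smul, cst_map] at this
    simpa [PatchData.map] using this
  · intro i
    have := key (h.atZero i)
    simp only [map_add, map_sum, map_pow, map_one, mapMatrix_smul, cst_map, yv_map] at this
    simpa [PatchData.map] using this
  · intro i
    have := key (h.congr i)
    simp only [map_sub, mapMatrix_smul, cst_map] at this
    rw [← hChi_map] at this
    simpa [PatchData.map] using this

theorem PatchData.valid_of_forall {ι : Type} {R' : ι → Type} [∀ n, CommRing (R' n)]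
    [∀ n, Algebra (MvPowerSeries (Fin r) O) (R' n)]
    (f : ∀ n, R →ₐ[MvPowerSeries (Fin r) O] R' n) (hf : ∀ x y, (∀ n, f n x = f n y) → x = y)
    {D : PatchData r d α β γ R} (h : ∀ n, (D.map (f n)).Valid P) : D.Valid P := by
  classical
  have key : ∀ {a b : Mat d R}, (∀ n, (f n).toRingHom.mapMatrix a = (f n).toRingHom.mapMatrix b) →
      a = b := fun {a b} e => by
    ext i j
    exact hf _ _ fun n => congrFun (congrFun (e n) i) j
  constructor
  · intro i j; refine key fun n => ?_; simpa [PatchData.map] using (h n).comm i j
  · intro t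
    refine key fun n => ?_
    simp only [map_add, map_sum, map_mul, map_pow, map_one, mapMatrix_smul, cst_map, yv_map]
    simpa [PatchData.map] using (h n).gen t
  · intro v
    refine key fun n => ?_
    simp only [map_add, map_sum, map_pow, mapMatrix_smul, cst_map, yv_map]
    simpa [PatchData.map] using (h n).nil v
  · intro a
    refine key fun n => ?_
    simp only [mapMatrix_eval₂, map_add, map_mul, map_zero]
    simpa [PatchData.map] using (h n).qB a
  · intro a i k
    refine key fun n => ?_
    simp only [map_sub, map_mul, map_pow, map_zero]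
    simpa [PatchData.map] using (h n).cross a i k
  · intro b
    refine key fun n => ?_
    simp only [mapMatrix_eval₂, map_mul, map_zero]
    simpa [PatchData.map] using (h n).muh b
  · intro i; refine key fun n => ?_; simpa [PatchData.map] using (h n).commOne i
  · intro i
    refine key fun n => ?_
    simp only [map_sub, map_mul, map_pow, map_one, map_zero, mapMatrix_smul, cst_map]
    simpa [PatchData.map] using (h n).steinberg i
  · intro i
    refine key fun n => ?_
    simp only [map_add, map_sum, map_pow, map_one, mapMatrix_smul, cst_map, yv_map]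
    simpa [PatchData.map] using (h n).atZero i
  · intro i
    refine key fun n => ?_
    simp only [map_sub, mapMatrix_smul, cst_map]
    rw [← hChi_map]
    simpa [PatchData.map] using (h n).congr i

end Map

section Limit

variable [IsDomain O] [IsDiscreteValuationRing O] [IsAdicComplete (maximalIdeal O) O]
  [Finite (ResidueField O)]

/-- The quotient `S / 𝔪ⁿ`. -/
abbrev PLevel (O : Type) [CommRing O] [IsLocalRing O] (r n : ℕ) : Type :=
  MvPowerSeries (Fin r) O ⧸ maximalIdeal (MvPowerSeries (Fin r) O) ^ n

omit [IsAdicComplete (maximalIdeal O) O] in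
theorem finite_residueField_mvPowerSeries (r : ℕ) :
    Finite (ResidueField (MvPowerSeries (Fin r) O)) :=
  Finite.of_surjective
    (fun x : ResidueField O =>
      IsLocalRing.ResidueField.map (algebraMap O (MvPowerSeries (Fin r) O)) x) fun y => by
    obtain ⟨o, ho⟩ := DefRing.residue_algebraMap_surjective_mvPowerSeries (σ := Fin r) (O := O) y
    exact ⟨residue O o, by simpa [IsLocalRing.ResidueField.map_residue] using ho⟩

omit [Finite (ResidueField O)] in
/-- Compatible elements of the quotients `S / 𝔪ⁿ` come from an element of `S`. -/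
theorem exists_lift_levels {r : ℕ} (f : ∀ n, PLevel O r n)
    (hf : ∀ {m n : ℕ} (h : m ≤ n), Ideal.Quotient.factorPow _ h (f n) = f m) :
    ∃ x : MvPowerSeries (Fin r) O, ∀ n, Ideal.Quotient.mk _ x = f n := by
  choose g hg using fun n => Ideal.Quotient.mk_surjective (f n)
  obtain ⟨L, hL⟩ := IsPrecomplete.prec
    (I := maximalIdeal (MvPowerSeries (Fin r) O)) (M := MvPowerSeries (Fin r) O) inferInstance
    (f := g) (fun {m n} h => by
      rw [SModEq.sub_mem, smul_eq_mul, Ideal.mul_top, ← Ideal.Quotient.eq, hg m, ← hf h, ← hg n]
      rfl)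
  refine ⟨L, fun n => ?_⟩
  rw [← hg n, Ideal.Quotient.eq]
  have := hL n
  rw [SModEq.sub_mem, smul_eq_mul, Ideal.mul_top] at this
  simpa using neg_mem this

variable [Fintype α] [Fintype β] [Fintype γ] [Fintype (PVar α β γ)] {P : PatchParams O α β}

/-- Compactness: data at all finite levels give a datum over `S`. -/
theorem exists_valid_of_forall_level
    (h : ∀ n, ∃ D : PatchData r d α β γ (PLevel O r n), D.Valid P) :
    ∃ D : PatchData r d α β γ (MvPowerSeries (Fin r) O), D.Valid P := by
  classical
  have := finite_residueField_mvPowerSeries (O := O) r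
  have : ∀ n, Finite (PLevel O r n) := fun n => DefRing.finite_quotient_maximalIdeal_pow n
  let α' : ℕ → Type := fun n => {D : PatchData r d α β γ (PLevel O r n) // D.Valid P}
  have : ∀ n, Nonempty (α' n) := fun n => ⟨⟨(h n).choose, (h n).choose_spec⟩⟩
  have : ∀ n, Finite (α' n) := fun n => Subtype.finite
  let fac : ∀ {m n : ℕ}, m ≤ n → PLevel O r n →ₐ[MvPowerSeries (Fin r) O] PLevel O r m :=
    fun hmn => Ideal.Quotient.factorₐ _ (Ideal.pow_le_pow_right hmn)
  let pr : ∀ {m n : ℕ}, m ≤ n → α' n → α' m := fun hmn D => ⟨D.1.map (fac hmn), D.2.map _⟩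
  have hrefl : ∀ (n : ℕ) (x : PLevel O r n), fac le_rfl x = x := fun n x => by
    obtain ⟨x, rfl⟩ := Ideal.Quotient.mk_surjective x
    rfl
  have htrans : ∀ {i j k : ℕ} (hij : i ≤ j) (hjk : j ≤ k) (x : PLevel O r k),
      fac hij (fac hjk x) = fac (hij.trans hjk) x := fun hij hjk x => by
    obtain ⟨x, rfl⟩ := Ideal.Quotient.mk_surjective x
    rfl
  obtain ⟨f, hf⟩ := exists_seq_forall_proj_of_forall_finite (α := α') pr
    (fun i D => Subtype.ext (by
      simp only [pr, PatchData.map]
      congr <;> (funext _; ext; exact hrefl _ _)))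
    (fun i j k hij hjk D => Subtype.ext (by
      simp only [pr, PatchData.map]
      congr <;> (funext _; ext; exact htrans hij hjk _)))
    (fun i a => Set.toFinite _)
  have lift : ∀ g : ∀ n, Mat d (PLevel O r n),
      (∀ {m n : ℕ} (hmn : m ≤ n), (g n).map (fac hmn) = g m) →
      ∃ M : Mat d (MvPowerSeries (Fin r) O), ∀ n, M.map (Ideal.Quotient.mk _) = g n := by
    intro g hg
    choose x hx using fun i j => exists_lift_levels (fun n => g n i j)
      (fun {m n} hmn => by
        have := congrFun (congrFun (hg hmn) i) j
        exact this)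
    exact ⟨Matrix.of x, fun n => by ext i j; exact hx i j n⟩
  have hcompat : ∀ {m n : ℕ} (hmn : m ≤ n), (f n).1.map (fac hmn) = (f m).1 :=
    fun hmn => congrArg Subtype.val (hf hmn)
  choose F hF using fun i => lift (fun n => (f n).1.F i)
    (fun hmn => congrFun (congrArg PatchData.F (hcompat hmn)) i)
  choose Z hZ using fun v o => lift (fun n => (f n).1.Z v o)
    (fun hmn => congrFun (congrFun (congrArg PatchData.Z (hcompat hmn)) v) o)
  choose H1 hH1 using fun i => lift (fun n => (f n).1.H1 i)
    (fun hmn => congrFun (congrArg PatchData.H1 (hcompat hmn)) i)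
  choose U hU using fun i => lift (fun n => (f n).1.U i)
    (fun hmn => congrFun (congrArg PatchData.U (hcompat hmn)) i)
  choose W hW using fun i t => lift (fun n => (f n).1.W i t)
    (fun hmn => congrFun (congrFun (congrArg PatchData.W (hcompat hmn)) i) t)
  choose L hL using fun i => lift (fun n => (f n).1.L i)
    (fun hmn => congrFun (congrArg PatchData.L (hcompat hmn)) i)
  refine ⟨⟨F, Z, H1, U, W, L⟩, ?_⟩
  refine PatchData.valid_of_forall (R' := fun n => PLevel O r n)
    (fun n => Ideal.Quotient.mkₐ _ _) (fun x y hxy => ?_) (fun n => ?_)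
  · rw [← sub_eq_zero]
    refine IsHausdorff.haus
      (I := maximalIdeal (MvPowerSeries (Fin r) O)) (M := MvPowerSeries (Fin r) O) inferInstance
      _ fun n => ?_
    rw [SModEq.zero, smul_eq_mul, Ideal.mul_top]
    exact Ideal.Quotient.eq.mp (hxy n)
  · have e : (⟨F, Z, H1, U, W, L⟩ : PatchData r d α β γ (MvPowerSeries (Fin r) O)).map
        (Ideal.Quotient.mkₐ (MvPowerSeries (Fin r) O) _) = (f n).1 := by
      simp only [PatchData.map]
      exact PatchData.ext_fields (funext fun i => hF i n) (funext fun v => funext fun o => hZ v o n)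
        (funext fun i => hH1 i n) (funext fun i => hU i n)
        (funext fun i => funext fun t => hW i t n) (funext fun i => hL i n)
    exact e ▸ (f n).2

end Limit

end FLTAgent.LevelLowering
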