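import Fermat.Agent.LevelLowering.Dimension
import Fermat.Agent.LevelLowering.PatchData
import Fermat.Agent.RTAlgebra.PowerSeriesRegular
import Mathlib.RingTheory.Ideal.MinimalPrime.Localization
import Mathlib.RingTheory.KrullDimension.Zero

/-!
# A patching system with no unramified points cannot exist

`false_of_forall_level`: the twisted module only has points where inertia at the level lowering
primes has two distinct eigenvalues.  If `h` is nilpotent modulo the uniformiser then the
coordinates `(λ, z, x)` cut out the closed point of a component of the twisted Hecke algebra, which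
has dimension at least `r + 1`; but then the at most `r` elements `(b - λ, c', c + b', μ, x)` cut
out only the closed point as well.  This ends the proof of `lowerCore`.
-/

set_option autoImplicit false

noncomputable section

open IsLocalRing MvPowerSeries

namespace FLTAgent.LevelLowering

/-- A commuting family of matrices lives in a finite commutative algebra. -/
theorem exists_commAlg {S : Type} [CommRing S] [IsNoetherianRing S] {d : ℕ} {ι : Type}
    (F : ι → Mat d S) (h : ∀ i j, F i * F j = F j * F i) :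
    ∃ (C : Type) (_ : CommRing C) (_ : Algebra S C) (φ : C →ₐ[S] Mat d S) (g : ι → C),
      Module.Finite S C ∧ Function.Injective φ ∧ ∀ i, φ (g i) = F i := by
  let A := Algebra.adjoin S (Set.range F)
  have : IsMulCommutative A := Algebra.isMulCommutative_adjoin S (by
    rintro _ ⟨i, rfl⟩ _ ⟨j, rfl⟩; exact h i j)
  let : CommRing A := open scoped IsMulCommutative in inferInstance
  refine ⟨A, inferInstance, inferInstance, A.val, fun i => ⟨F i, Algebra.subset_adjoin ⟨i, rfl⟩⟩,
    ?_, Subtype.val_injective, fun i => rfl⟩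
  exact Module.Finite.of_injective A.val.toLinearMap Subtype.val_injective

section General

variable {S : Type} [CommRing S] [IsDomain S] {d : ℕ} {C : Type} [CommRing C] [Algebra S C]
  (φ : C →ₐ[S] Mat d S) (hφ : Function.Injective φ)

include hφ in
theorem algebraMap_mem_nonZeroDivisors {s : S} (hs : s ≠ 0) :
    algebraMap S C s ∈ nonZeroDivisors C := by
  refine mem_nonZeroDivisors_iff_right.mpr fun x hx => ?_
  apply hφ
  have h1 : φ x * algebraMap S (Mat d S) s = 0 := by rw [← φ.commutes, ← map_mul, hx, map_zero]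
  rw [map_zero]
  ext i j
  have h2 := congrFun (congrFun h1 i) j
  simp only [Matrix.algebraMap_eq_diagonal, Matrix.mul_diagonal, Matrix.zero_apply,
    Pi.algebraMap_apply, Algebra.algebraMap_self, RingHom.id_apply] at h2
  simpa [hs] using h2

include hφ in
theorem comap_eq_bot_of_mem_minimalPrimes {Q : Ideal C} (hQ : Q ∈ minimalPrimes C) :
    Q.comap (algebraMap S C) = ⊥ := by
  refine (Submodule.eq_bot_iff _).mpr fun s hs => by_contra fun hne => ?_
  exact Set.disjoint_left.mp (Ideal.disjoint_nonZeroDivisors_of_mem_minimalPrimes hQ)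
    (Ideal.mem_comap.mp hs) (algebraMap_mem_nonZeroDivisors φ hφ hne)

include hφ in
/-- An element annihilated by one which is invertible at the primes over `p` is nilpotent. -/
theorem isNilpotent_of_mul_eq_zero [Module.Finite S C] (p : Ideal S) [p.IsPrime] {u t : C}
    (m : ℕ) (hut : (u * t) ^ m = 0) (e : S) (he : e ∉ p)
    (hu : ∀ i j, φ ((algebraMap S C e + u) ^ m) i j ∈ p) :
    IsNilpotent t := by
  have key : t ∈ sInf ((⊥ : Ideal C).minimalPrimes) := by
    refine Submodule.mem_sInf.mpr fun Q hQ => ?_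
    have hQp : Ideal.IsPrime (Q : Ideal C) := Ideal.IsMinimalPrime.isPrime hQ
    rcases hQp.mem_or_mem (hQp.mem_of_pow_mem m (show (u * t) ^ m ∈ Q by
      rw [hut]; exact zero_mem _)) with h | h
    · exfalso
      have hbot := comap_eq_bot_of_mem_minimalPrimes φ hφ hQ
      obtain ⟨P, hPQ, hP, hPp⟩ := Ideal.exists_ideal_over_prime_of_isIntegral_of_isPrime p Q
        (by rw [hbot]; exact bot_le)
      obtain ⟨k, hk⟩ := exists_pow_mem_map φ hφ p _ hu
      have hle : p.map (algebraMap S C) ≤ P := by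
        rw [Ideal.map_le_iff_le_comap, hPp]
      rw [← pow_mul] at hk
      have h1 : algebraMap S C e + u ∈ P := hP.mem_of_pow_mem _ (hle hk)
      have h2 : algebraMap S C e ∈ P := by simpa using sub_mem h1 (hPQ h)
      exact he (hPp ▸ Ideal.mem_comap.mpr h2)
    · exact h
  rw [Ideal.sInf_minimalPrimes] at key
  exact mem_nilradical.mp key

end General

section Identities

variable {C : Type} [CommRing C] (A B : Fin 3 → C)

/-- Twice the scalar product of two traceless matrices. -/
def twiceDot : C := 2 * (A 0 * B 0) + A 1 * B 2 + A 2 * B 1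

variable (h : ∀ i k, A i * B k = A k * B i)

include h in
theorem two_mul_quad_mul (k : Fin 3) :
    2 * (B 0 * B 0 + B 1 * B 2) * A k = twiceDot A B * B k := by
  unfold twiceDot
  linear_combination (2 * B 0) * h k 0 + B 2 * h k 1 + B 1 * h k 2

include h in
theorem twiceDot_mul_self :
    twiceDot A B * twiceDot A B =
      4 * (A 0 * A 0 + A 1 * A 2) * (B 0 * B 0 + B 1 * B 2) := by
  unfold twiceDot
  linear_combination 4 * (A 0 * B 2 - A 2 * B 0) * h 1 0 + (A 1 * B 2 - A 2 * B 1) * h 1 2

/-- Modulo a prime with equal cross products the slice and both forms cut out all coordinates. -/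
theorem coords_mem_of_slice {J : Ideal C} (hJ : J.IsPrime)
    (hx : ∀ i k, Ideal.Quotient.mk J (A i) * Ideal.Quotient.mk J (B k) =
      Ideal.Quotient.mk J (A k) * Ideal.Quotient.mk J (B i))
    (hA1 : A 1 ∈ J) (hB2 : B 2 ∈ J) (hsum : A 2 + B 1 ∈ J)
    (hqA : A 0 * A 0 + A 1 * A 2 ∈ J) (hqB : B 0 * B 0 + B 1 * B 2 ∈ J) :
    (∀ j, A j ∈ J) ∧ ∀ j, B j ∈ J := by
  have hA0 : A 0 ∈ J := by
    have h := sub_mem hqA (Ideal.mul_mem_right (A 2) J hA1)
    rw [add_sub_cancel_right] at h
    exact (hJ.mem_or_mem h).elim id id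
  have hB0 : B 0 ∈ J := by
    have h := sub_mem hqB (Ideal.mul_mem_left J (B 1) hB2)
    rw [add_sub_cancel_right] at h
    exact (hJ.mem_or_mem h).elim id id
  have hdot : twiceDot A B ∈ J := by
    refine (hJ.mem_or_mem (?_ : _ * _ ∈ J)).elim id id
    have e : Ideal.Quotient.mk J (twiceDot A B * twiceDot A B) = Ideal.Quotient.mk J
        (4 * (A 0 * A 0 + A 1 * A 2) * (B 0 * B 0 + B 1 * B 2)) := by
      simpa [twiceDot, map_ofNat (Ideal.Quotient.mk J)] using
        twiceDot_mul_self (fun j => Ideal.Quotient.mk J (A j))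
          (fun j => Ideal.Quotient.mk J (B j)) hx
    rw [← Ideal.Quotient.eq_zero_iff_mem, e, Ideal.Quotient.eq_zero_iff_mem]
    exact Ideal.mul_mem_right _ _ (Ideal.mul_mem_left _ _ hqA)
  have hA2B1 : A 2 * B 1 ∈ J := by
    rw [show A 2 * B 1 = twiceDot A B - 2 * B 0 * A 0 - A 1 * B 2 by unfold twiceDot; ring]
    exact sub_mem (sub_mem hdot (Ideal.mul_mem_left _ _ hA0)) (Ideal.mul_mem_left _ _ hB2)
  have hA2 : A 2 ∈ J := by
    have h : A 2 * A 2 ∈ J := by
      have := sub_mem (Ideal.mul_mem_left J (A 2) hsum) hA2B1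
      simpa [mul_add] using this
    exact (hJ.mem_or_mem h).elim id id
  have hB1 : B 1 ∈ J := by simpa using sub_mem hsum hA2
  exact ⟨fun j => by fin_cases j <;> assumption, fun j => by fin_cases j <;> assumption⟩

/-- Modulo such a prime, if `2 q(B)` is nonzero, `B₂` and `A₂ + B₁` cut out `A₁`. -/
theorem fst_mem_of_slice {J : Ideal C} (hJ : J.IsPrime)
    (hx : ∀ i k, Ideal.Quotient.mk J (A i) * Ideal.Quotient.mk J (B k) =
      Ideal.Quotient.mk J (A k) * Ideal.Quotient.mk J (B i))
    (hw : (2 : C) * (B 0 * B 0 + B 1 * B 2) ∉ J) (hB2 : B 2 ∈ J) (hsum : A 2 + B 1 ∈ J) :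
    A 1 ∈ J := by
  have key : ∀ k, Ideal.Quotient.mk J (2 * (B 0 * B 0 + B 1 * B 2) * A k) =
      Ideal.Quotient.mk J (twiceDot A B * B k) := fun k => by
    simpa [twiceDot, map_ofNat (Ideal.Quotient.mk J)] using
      two_mul_quad_mul (fun j => Ideal.Quotient.mk J (A j))
        (fun j => Ideal.Quotient.mk J (B j)) hx k
  have hA2 : A 2 ∈ J := by
    refine (hJ.mem_or_mem ?_).resolve_left hw
    rw [← Ideal.Quotient.eq_zero_iff_mem, key 2, Ideal.Quotient.eq_zero_iff_mem]
    exact Ideal.mul_mem_left _ _ hB2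
  have hB1 : B 1 ∈ J := by simpa using sub_mem hsum hA2
  refine (hJ.mem_or_mem ?_).resolve_left hw
  rw [← Ideal.Quotient.eq_zero_iff_mem, key 1, Ideal.Quotient.eq_zero_iff_mem]
  exact Ideal.mul_mem_left _ _ hB1

end Identities

section Roots

variable {O C : Type} [CommRing O] [IsDomain O] [IsDiscreteValuationRing O] [CommRing C]
  {J : Ideal C} (ι : O →+* C) {lam : O} (f : Polynomial O)

/-- A root in a prime of a polynomial with nonzero constant term puts the uniformiser there. -/
theorem lam_mem_of_eval₂ (hlam : maximalIdeal O = Ideal.span {lam}) (hJ : J.IsPrime)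
    (hf0 : f.coeff 0 ≠ 0) {x : C} (hx : f.eval₂ ι x = 0) (hxJ : x ∈ J) : ι lam ∈ J := by
  have h0 : ι (f.coeff 0) ∈ J := by
    have e := congrArg (Ideal.Quotient.mk J) hx
    rw [Polynomial.hom_eval₂, Ideal.Quotient.eq_zero_iff_mem.mpr hxJ, map_zero,
      Polynomial.eval₂_at_zero, RingHom.comp_apply] at e
    exact Ideal.Quotient.eq_zero_iff_mem.mp e
  obtain ⟨n, u, hu⟩ := IsDiscreteValuationRing.eq_unit_mul_pow_irreducible hf0
    ((IsDiscreteValuationRing.irreducible_iff_uniformizer lam).mpr hlam)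
  rw [hu, map_mul, map_pow] at h0
  rcases hJ.mem_or_mem h0 with h | h
  · exact absurd (Ideal.eq_top_of_isUnit_mem J h (u.isUnit.map ι)) hJ.ne_top
  · exact hJ.mem_of_pow_mem _ h

omit [IsDomain O] [IsDiscreteValuationRing O] in
/-- Over the uniformiser roots of monic polynomials with divisible coefficients are nilpotent. -/
theorem mem_of_eval₂_eq_zero (hJ : J.IsPrime) (hf : f.Monic)
    (hdvd : ∀ k, k < f.natDegree → lam ∣ f.coeff k) (hl : ι lam ∈ J) {x : C}
    (hx : f.eval₂ ι x = 0) : x ∈ J := by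
  refine hJ.mem_of_pow_mem f.natDegree ?_
  rw [Polynomial.eval₂_eq_sum_range, Finset.sum_range_succ, hf.coeff_natDegree, map_one,
    one_mul] at hx
  rw [eq_neg_of_add_eq_zero_right hx]
  refine neg_mem (Ideal.sum_mem _ fun k hk => Ideal.mul_mem_right _ _ ?_)
  obtain ⟨c', hc'⟩ := hdvd k (Finset.mem_range.mp hk)
  rw [hc', map_mul]
  exact Ideal.mul_mem_right _ _ hl

end Roots

/-- The quotient by an ideal contained only in maximal primes has dimension at most zero. -/
theorem ringKrullDim_quotient_le_zero {B : Type} [CommRing B] (I : Ideal B)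
    (h : ∀ M : Ideal B, M.IsPrime → I ≤ M → M.IsMaximal) : ringKrullDim (B ⧸ I) ≤ 0 := by
  rw [← Nat.cast_zero, ← Ring.krullDimLE_iff, Ring.krullDimLE_zero_iff]
  intro M hM
  have hM' : (M.comap (Ideal.Quotient.mk I)).IsMaximal := h _ (Ideal.comap_isPrime _ _)
    (fun x hx => by simp [Ideal.Quotient.eq_zero_iff_mem.mpr hx])
  exact (Ideal.map_comap_of_surjective _ Ideal.Quotient.mk_surjective M) ▸
    (Ideal.map_eq_top_or_isMaximal_of_surjective _ Ideal.Quotient.mk_surjective hM').resolve_left
      (by rw [Ideal.map_comap_of_surjective _ Ideal.Quotient.mk_surjective M]; exact hM.ne_top)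

/-- The value of `h` in a commutative algebra carrying the coordinates `g`. -/
def hCoord {C : Type} [CommRing C] {r : ℕ} {α β γ : Type} (g : FamIdx r α β γ → C) : α ⊕ β → C
  | .inl a => g (.inl (.vA a 0)) * g (.inl (.vA a 0)) + g (.inl (.vA a 1)) * g (.inl (.vA a 2))
  | .inr b => g (.inl (.vh b))

/-- The slice: shifted `A₁`, `B₂`, `A₂ + B₁` at split sites; `μ` at others; global coordinates. -/
def sliceGen {C : Type} [CommRing C] {r : ℕ} {α β γ : Type} [DecidableEq α]
    (g : FamIdx r α β γ → C) (a₀ : Option α) (l : C) : (α × Fin 3) ⊕ β ⊕ γ → C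
  | .inl (a, j) =>
      if j = 0 then g (.inl (.vA a 1)) - (if a₀ = some a then l else 0)
      else if j = 1 then g (.inl (.vB a 2))
      else g (.inl (.vA a 2)) + g (.inl (.vB a 1))
  | .inr (.inl b) => g (.inl (.vmu b))
  | .inr (.inr k) => g (.inl (.vx k))

/-- The slice vanishes at the closed point. -/
theorem sliceGen_mem {C : Type} [CommRing C] {r : ℕ} {α β γ : Type} [DecidableEq α]
    (g : FamIdx r α β γ → C) (a₀ : Option α) {l : C} {J : Ideal C} (hv : ∀ v, g (.inl v) ∈ J)
    (hl : l ∈ J) : ∀ x, sliceGen g a₀ l x ∈ J := by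
  rintro (⟨a, j⟩ | b | k) <;> simp only [sliceGen]
  · split_ifs
    · exact sub_mem (hv _) hl
    · simpa using hv _
    · exact hv _
    · exact add_mem (hv _) (hv _)
  · exact hv _
  · exact hv _

variable {O : Type} [CommRing O] [IsDomain O] [IsDiscreteValuationRing O]
  [IsAdicComplete (maximalIdeal O) O] [Finite (ResidueField O)] {r d : ℕ} {α β γ : Type}
  [Fintype α] [Fintype β] [Fintype γ] [Fintype (PVar α β γ)]

local notation "SS" => MvPowerSeries (Fin r) O

section Steps

variable {P : PatchParams O α β} {D : PatchData r d α β γ (MvPowerSeries (Fin r) O)}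
  (hD : D.Valid P)
include hD

omit [IsAdicComplete (maximalIdeal O) O] [Finite (ResidueField O)] in
/-- On the untwisted module `h` is nilpotent modulo the uniformiser. -/
theorem isNilpotent_H1_mod [IsDomain SS] [Nonempty (Fin d)]
    (he : ∀ i, P.e i ≠ 0) (hc : ∀ i, P.lam ∣ P.c i) (i : α ⊕ β) :
    IsNilpotent ((Ideal.Quotient.mk (Ideal.span {(MvPowerSeries.C P.lam : SS)})).mapMatrix
      (D.H1 i)) := by
  classical
  obtain ⟨C1, _, _, φ, g, _, hφ, hg⟩ := exists_commAlg (ι := Bool)
    (fun s => if s then D.U i else D.H1 i) (by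
      intro s t; cases s <;> cases t <;> simp [hD.commOne i])
  have hgU : φ (g true) = D.U i := by simpa using hg true
  have hgH : φ (g false) = D.H1 i := by simpa using hg false
  let t : C1 := g false - algebraMap SS C1 (MvPowerSeries.C (P.c i))
  have hφt : φ t = D.H1 i - cst (r := r) SS (P.c i) • (1 : Mat d SS) := by
    rw [map_sub, φ.commutes, hgH, Algebra.algebraMap_eq_smul_one]
    rfl
  have hut : (g true * t) ^ P.D = 0 :=
    hφ (by rw [map_pow, map_mul, hgU, hφt, hD.steinberg, map_zero])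
  have : (RingHom.ker (constantCoeff (σ := Fin r) (R := O))).IsPrime := RingHom.ker_isPrime _
  obtain ⟨k, hk⟩ := isNilpotent_of_mul_eq_zero φ hφ
    (RingHom.ker (constantCoeff (σ := Fin r) (R := O))) P.D hut (MvPowerSeries.C (P.e i))
    (by simpa [RingHom.mem_ker] using he i)
    (fun a b => by
      rw [map_pow φ, map_add, φ.commutes, hgU, Algebra.algebraMap_eq_smul_one]
      have := congrFun (congrFun (hD.atZero i) a) b
      simp only [cst, yv, Algebra.algebraMap_self, RingHom.id_apply] at this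
      rw [this, Matrix.sum_apply]
      refine Ideal.sum_mem _ fun t _ => ?_
      rw [Matrix.smul_apply, smul_eq_mul]
      exact Ideal.mul_mem_right _ _ (by simp [RingHom.mem_ker]))
  refine ⟨k, ?_⟩
  set q := Ideal.Quotient.mk (Ideal.span {(MvPowerSeries.C P.lam : SS)}) with hq
  have hqc : q (MvPowerSeries.C (P.c i)) = 0 := by
    obtain ⟨c', hc'⟩ := hc i
    rw [hq, Ideal.Quotient.eq_zero_iff_mem, hc', map_mul]
    exact Ideal.mul_mem_right _ _ (Ideal.mem_span_singleton_self _)
  have h0 : q.mapMatrix ((D.H1 i - cst (r := r) SS (P.c i) • (1 : Mat d SS)) ^ k) = 0 := by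
    rw [← hφt, ← map_pow φ, hk, map_zero, map_zero]
  have h1 : q.mapMatrix (D.H1 i - cst (r := r) SS (P.c i) • (1 : Mat d SS)) =
      q.mapMatrix (D.H1 i) := by
    ext a b
    simp [hqc]
  rw [map_pow, h1] at h0
  exact h0

variable {C : Type} [CommRing C] [Algebra (MvPowerSeries (Fin r) O) C]
  {φ : C →ₐ[MvPowerSeries (Fin r) O] Mat d (MvPowerSeries (Fin r) O)}
  (hφ : Function.Injective φ) {g : FamIdx r α β γ → C} (hg : ∀ i, φ (g i) = D.F i)
include hφ hg

omit [IsDomain O] [IsDiscreteValuationRing O] [IsAdicComplete (maximalIdeal O) O]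
  [Finite (ResidueField O)] in
/-- On the twisted module a power of `h` is divisible by the uniformiser. -/
theorem exists_pow_hCoord_mem
    (hone : ∀ i, IsNilpotent
      ((Ideal.Quotient.mk (Ideal.span {(MvPowerSeries.C P.lam : SS)})).mapMatrix (D.H1 i)))
    (i : α ⊕ β) : ∃ k : ℕ, hCoord g i ^ k ∈
      (Ideal.span {(MvPowerSeries.C P.lam : SS)}).map (algebraMap SS C) := by
  classical
  have hhC : φ (hCoord g i) = D.hChi i := by
    rcases i with a | b <;> simp [hCoord, PatchData.hChi, hg]
  set q := Ideal.Quotient.mk (Ideal.span {(MvPowerSeries.C P.lam : SS)}) with hq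
  have hcg : q.mapMatrix (D.hChi i) = q.mapMatrix (D.H1 i) := by
    rw [← sub_eq_zero, ← map_sub, hD.congr i]
    ext a b
    have : q (MvPowerSeries.C P.lam) = 0 :=
      Ideal.Quotient.eq_zero_iff_mem.mpr (Ideal.mem_span_singleton_self _)
    simp [this]
  obtain ⟨m, hm⟩ := hone i
  refine (exists_pow_mem_map φ hφ _ (hCoord g i ^ m) fun a b => ?_).elim
    fun l hl => ⟨m * l, by rwa [pow_mul]⟩
  rw [← Ideal.Quotient.eq_zero_iff_mem, map_pow, hhC]
  have : q.mapMatrix ((D.hChi i) ^ m) = 0 := by rw [map_pow, hcg, hm]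
  exact congrFun (congrFun this a) b

omit [IsAdicComplete (maximalIdeal O) O] [Finite (ResidueField O)] in
/-- The coordinates lie in every prime over the closed point. -/
theorem coord_mem_of_maximalIdeal_le (hlam : maximalIdeal O = Ideal.span {P.lam})
    {J : Ideal C} (hJ : J.IsPrime)
    (hle : (maximalIdeal SS).map (algebraMap SS C) ≤ J) (v : PVar α β γ) : g (.inl v) ∈ J := by
  classical
  obtain ⟨k, hk⟩ := exists_pow_mem_map φ hφ (maximalIdeal SS) (g (.inl v) ^ P.D) fun a b => by
    rw [map_pow, hg]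
    erw [hD.nil v]
    rw [Matrix.add_apply, Matrix.sum_apply, RTAlgebra.maximalIdeal_eq_span_C_X hlam]
    refine add_mem ?_ (Ideal.sum_mem _ fun t _ => ?_) <;> rw [Matrix.smul_apply, smul_eq_mul]
    · exact Ideal.mul_mem_right _ _ (Ideal.subset_span (by simp [cst]))
    · exact Ideal.mul_mem_right _ _ (Ideal.subset_span (by simp [yv]))
  rw [← pow_mul] at hk
  exact hJ.mem_of_pow_mem _ (hle hk)

omit [IsAdicComplete (maximalIdeal O) O] [Finite (ResidueField O)] in
/-- A prime containing the slice contains the uniformiser and all diamond variables. -/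
theorem lam_mem_and_X_mem_of_slice [DecidableEq α] (hlam : maximalIdeal O = Ideal.span {P.lam})
    (h2 : IsUnit (2 : O)) (hf : ∀ i, (P.f i).Monic) (hf0 : ∀ i, (P.f i).coeff 0 ≠ 0)
    (hflam : ∀ i k, k < (P.f i).natDegree → P.lam ∣ (P.f i).coeff k)
    (hnil : ∀ i, ∃ k : ℕ, hCoord g i ^ k ∈
      (Ideal.span {(MvPowerSeries.C P.lam : SS)}).map (algebraMap SS C))
    {a₀ : Option α} (ha₀ : (∃ a, a₀ = some a) ∨ Nonempty β) {J : Ideal C} (hJ : J.IsPrime)
    (hgen : ∀ x, sliceGen g a₀ (algebraMap SS C (MvPowerSeries.C P.lam)) x ∈ J) :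
    algebraMap SS C (MvPowerSeries.C P.lam) ∈ J ∧
      ∀ t, algebraMap SS C (X t : SS) ∈ J := by
  classical
  let ι : O →+* C := (algebraMap SS C).comp MvPowerSeries.C
  have h2J : (2 : C) ∉ J := fun h => hJ.ne_top <| Ideal.eq_top_of_isUnit_mem J h <| by
    simpa only [map_ofNat] using h2.map ι
  have hcst : φ.toRingHom.comp ι = cstMat d r SS := RingHom.ext fun o => φ.commutes _
  have hqB : ∀ a, (P.f (.inl a)).eval₂ ι (g (.inl (.vB a 0)) * g (.inl (.vB a 0)) +
      g (.inl (.vB a 1)) * g (.inl (.vB a 2))) = 0 := fun a => by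
    refine hφ ((Polynomial.hom_eval₂ (P.f (.inl a)) ι φ.toRingHom _).trans ?_)
    rw [hcst, map_zero]
    simpa only [map_add, map_mul, AlgHom.toRingHom_eq_coe, RingHom.coe_coe, hg] using hD.qB a
  have hmuh : ∀ b, (P.f (.inr b)).eval₂ ι
      (g (.inl (.vmu b)) * g (.inl (.vmu b)) * g (.inl (.vh b))) = 0 := fun b => by
    refine hφ ((Polynomial.hom_eval₂ (P.f (.inr b)) ι φ.toRingHom _).trans ?_)
    rw [hcst, map_zero]
    simpa only [map_mul, AlgHom.toRingHom_eq_coe, RingHom.coe_coe, hg] using hD.muh b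
  have hcross : ∀ a i k, Ideal.Quotient.mk J (g (.inl (.vA a i))) *
      Ideal.Quotient.mk J (g (.inl (.vB a k))) = Ideal.Quotient.mk J (g (.inl (.vA a k))) *
      Ideal.Quotient.mk J (g (.inl (.vB a i))) := by
    intro a i k
    rw [← map_mul, ← map_mul, Ideal.Quotient.eq]
    refine hJ.mem_of_pow_mem P.D ?_
    have e : (g (.inl (.vA a i)) * g (.inl (.vB a k)) -
        g (.inl (.vA a k)) * g (.inl (.vB a i))) ^ P.D = 0 :=
      hφ (by simp only [map_pow, map_sub, map_mul, map_zero, hg]; exact hD.cross a i k)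
    rw [e]
    exact zero_mem J
  have hlamJ : ι P.lam ∈ J := by
    rcases ha₀ with ⟨a, rfl⟩ | ⟨⟨b⟩⟩
    · by_contra hl
      have hA1 := fst_mem_of_slice (fun j => g (.inl (.vA a j))) (fun j => g (.inl (.vB a j))) hJ
        (hcross a) (fun h => (hJ.mem_or_mem h).elim h2J fun h =>
          hl (lam_mem_of_eval₂ ι _ hlam hJ (hf0 _) (hqB a) h))
        (by simpa [sliceGen] using hgen (.inl (a, 1)))
        (by simpa [sliceGen] using hgen (.inl (a, 2)))
      exact hl (by simpa [ι, sliceGen] using sub_mem hA1 (hgen (.inl (a, 0))))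
    · exact lam_mem_of_eval₂ ι _ hlam hJ (hf0 _) (hmuh b)
        (Ideal.mul_mem_right _ _ (Ideal.mul_mem_right _ _ (hgen (.inr (.inl b)))))
  have hlamJ' : algebraMap SS C (MvPowerSeries.C P.lam) ∈ J := hlamJ
  have hh : ∀ i, hCoord g i ∈ J := by
    intro i
    obtain ⟨k, hk⟩ := hnil i
    refine hJ.mem_of_pow_mem k (Ideal.map_le_iff_le_comap.mpr ?_ hk)
    rw [Ideal.span_singleton_le_iff_mem]
    exact hlamJ'
  have hall : ∀ v, g (.inl v) ∈ J := by
    have hA : ∀ a, (∀ j, g (.inl (.vA a j)) ∈ J) ∧ ∀ j, g (.inl (.vB a j)) ∈ J := by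
      intro a
      refine coords_mem_of_slice (fun j => g (.inl (.vA a j))) (fun j => g (.inl (.vB a j))) hJ
        (hcross a) ?_ (by simpa [sliceGen] using hgen (.inl (a, 1)))
        (by simpa [sliceGen] using hgen (.inl (a, 2))) (hh (.inl a))
        (mem_of_eval₂_eq_zero ι _ hJ (hf _) (hflam _) hlamJ (hqB a))
      have := hgen (.inl (a, 0))
      simp only [sliceGen, if_pos] at this
      split_ifs at this
      · simpa using add_mem this hlamJ'
      · simpa using this
    rintro (⟨a, j⟩ | ⟨a, j⟩ | b | b | k)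
    · exact (hA a).1 j
    · exact (hA a).2 j
    · exact hh (.inr b)
    · exact hgen (.inr (.inl b))
    · exact hgen (.inr (.inr k))
  refine ⟨hlamJ', fun t => hJ.mem_of_pow_mem P.D ?_⟩
  have e : algebraMap SS C (X t) ^ P.D =
      algebraMap SS C (MvPowerSeries.C P.lam) * g (.inr (t, none)) +
        ∑ v, g (.inl v) * g (.inr (t, some v)) := by
    apply hφ
    simp only [map_add, map_sum, map_mul φ, map_pow φ, hg, φ.commutes]
    rw [← map_pow, Algebra.algebraMap_eq_smul_one, Algebra.algebraMap_eq_smul_one, smul_one_mul]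
    exact hD.gen t
  rw [e]
  exact add_mem (Ideal.mul_mem_right _ _ hlamJ')
    (Ideal.sum_mem _ fun v _ => Ideal.mul_mem_right _ _ (hall v))

end Steps

/-- **No patching system.** -/
theorem false_of_forall_level (hd : 0 < d) (P : PatchParams O α β)
    (hlam : maximalIdeal O = Ideal.span {P.lam}) (h2 : IsUnit (2 : O))
    (hf : ∀ i, (P.f i).Monic) (hf0 : ∀ i, (P.f i).coeff 0 ≠ 0)
    (hflam : ∀ i k, k < (P.f i).natDegree → P.lam ∣ (P.f i).coeff k) (hc : ∀ i, P.lam ∣ P.c i)
    (he : ∀ i, P.e i ≠ 0) (hne : Nonempty α ∨ Nonempty β)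
    (hcard : 3 * Nat.card α + Nat.card β + Nat.card γ ≤ r)
    (hlev : ∀ n, ∃ D : PatchData r d α β γ (PLevel O r n), D.Valid P) : False := by
  classical
  obtain ⟨D, hD⟩ := exists_valid_of_forall_level hlev
  have : IsDomain SS := NoZeroDivisors.to_isDomain _
  have : Nonempty (Fin d) := ⟨⟨0, hd⟩⟩
  set lamS : SS := MvPowerSeries.C P.lam
  have hmax := RTAlgebra.maximalIdeal_eq_span_C_X (σ := Fin r) hlam
  -- the twisted module and a component of it
  obtain ⟨C, _, _, φ, g, _, hφ, hg⟩ := exists_commAlg D.F hD.comm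
  have : IsNoetherianRing C := IsNoetherianRing.of_finite SS C
  have hnil := exists_pow_hCoord_mem hD hφ hg (isNilpotent_H1_mod hD he hc)
  have hinj : Function.Injective (algebraMap SS C) := by
    intro x y hxy
    have := congrArg φ hxy
    rw [φ.commutes, φ.commutes] at this
    simpa [Matrix.algebraMap_eq_diagonal] using congrFun (congrFun this ⟨0, hd⟩) ⟨0, hd⟩
  have : Nontrivial C := hinj.nontrivial
  obtain ⟨M₁, hM₁⟩ := Ideal.exists_maximal C
  obtain ⟨Q, hQ, -⟩ := Ideal.exists_minimalPrimes_le (I := ⊥) (J := M₁) bot_le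
  have hQp : Q.IsPrime := Ideal.IsMinimalPrime.isPrime hQ
  let B := C ⧸ Q
  have : IsDomain B := Ideal.Quotient.isDomain Q
  have : Module.Finite SS B := Module.Finite.of_surjective
    (Ideal.Quotient.mkₐ SS Q).toLinearMap Ideal.Quotient.mk_surjective
  have : FaithfulSMul SS B := by
    rw [faithfulSMul_iff_algebraMap_injective, injective_iff_map_eq_zero]
    intro s hs
    have : s ∈ Q.comap (algebraMap SS C) :=
      Ideal.mem_comap.mpr (Ideal.Quotient.eq_zero_iff_mem.mp hs)
    rwa [comap_eq_bot_of_mem_minimalPrimes φ hφ hQ] at this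
  have hdimB : ((r + 1 : ℕ) : WithBot ℕ∞) ≤ ringKrullDim B :=
    (le_ringKrullDim_mvPowerSeries O r).trans (ringKrullDim_le_of_isIntegral SS B)
  -- the slice
  let a₀ : Option α := if h : Nonempty α then some h.some else none
  have ha₀ : (∃ a, a₀ = some a) ∨ Nonempty β :=
    hne.elim (fun h => Or.inl ⟨h.some, dif_pos h⟩) Or.inr
  let I : Ideal B := Ideal.span
    (Set.range fun x => Ideal.Quotient.mk Q (sliceGen g a₀ (algebraMap SS C lamS) x))
  have hjac : I ≤ Ring.jacobson B := by
    rw [Ring.jacobson_eq_sInf_isMaximal, le_sInf_iff]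
    intro M hM
    have hM' : M.IsMaximal := hM
    rw [Ideal.span_le]
    rintro _ ⟨x, rfl⟩
    have hmx : (M.comap (algebraMap SS B)).IsMaximal :=
      Ideal.isMaximal_comap_of_isIntegral_of_isMaximal M
    have hle : (maximalIdeal SS).map (algebraMap SS C) ≤ M.comap (Ideal.Quotient.mk Q) := by
      rw [Ideal.map_le_iff_le_comap, ← IsLocalRing.eq_maximalIdeal hmx]
      exact fun s hs => hs
    exact sliceGen_mem g a₀
      (coord_mem_of_maximalIdeal_le hD hφ hg hlam (Ideal.comap_isPrime _ _) hle)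
      (hle (Ideal.mem_map_of_mem _ (hmax ▸ Ideal.subset_span (by simp [lamS])))) x
  have hprimes : ∀ M : Ideal B, M.IsPrime → I ≤ M → M.IsMaximal := by
    intro M hM hIM
    obtain ⟨hl, hy⟩ := lam_mem_and_X_mem_of_slice hD hφ hg hlam h2 hf hf0 hflam hnil ha₀
      (J := M.comap (Ideal.Quotient.mk Q)) (Ideal.comap_isPrime _ _)
      fun x => hIM (Ideal.subset_span ⟨x, rfl⟩)
    refine Ideal.isMaximal_of_isIntegral_of_isMaximal_comap (R := SS) M ?_
    have hle : maximalIdeal SS ≤ M.comap (algebraMap SS B) := by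
      rw [hmax, ← Set.image_univ, Ideal.span_le]
      rintro s (rfl | ⟨t, -, rfl⟩)
      · exact hl
      · exact hy t
    rw [← (IsLocalRing.maximalIdeal.isMaximal SS).eq_of_le
      (Ideal.comap_ne_top _ hM.ne_top) hle]
    exact IsLocalRing.maximalIdeal.isMaximal SS
  -- dimension count
  have hspan : I.spanFinrank ≤ r := by
    refine ((Submodule.spanFinrank_span_le_ncard_of_finite (Set.finite_range _)).trans ?_)
    rw [← Nat.card_coe_set_eq]
    refine (Finite.card_range_le _).trans (le_trans (le_of_eq ?_) hcard)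
    simp
    ring
  have := hdimB.trans ((ringKrullDim_le_ringKrullDim_quotient_add_spanFinrank I hjac).trans
    (add_le_add (ringKrullDim_quotient_le_zero I hprimes) (le_refl _)))
  rw [zero_add] at this
  have : r + 1 ≤ I.spanFinrank := by exact_mod_cast this
  omega

end FLTAgent.LevelLowering
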