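import Mathlib.LinearAlgebra.Matrix.Charpoly.Coeff
import Mathlib.LinearAlgebra.Matrix.Trace
import Mathlib.RingTheory.RootsOfUnity.PrimitiveRoots
import Mathlib.Tactic.LinearCombination

/-!
# Identities between the images of a tame generator and of Frobenius

`N` is the image of an inertia generator and `M` that of a Frobenius element at `q`, so that
`M N = N ^ q M`, `det N = 1` and `det M = q`.  The coordinates `coord` of a matrix are those of its
trace zero part, `qform` is their quadratic form; `commute_of_principal` shows that `M` and `N`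
commute at a principal series point.  This is the algebra behind the patching identities.
-/

set_option autoImplicit false

namespace FLTAgent.LevelLowering

open Matrix

variable {R : Type*} [CommRing R]

/-- The coordinates `(a, b, c)` of the trace zero part `[[a, b], [c, -a]]`; here `2 * u = 1`. -/
def coord (u : R) (M : Matrix (Fin 2) (Fin 2) R) : Fin 3 → R :=
  ![u * (M 0 0 - M 1 1), M 0 1, M 1 0]

/-- The quadratic form `a² + bc`. -/
def qform (v : Fin 3 → R) : R := v 0 * v 0 + v 1 * v 2

theorem coord_map {S : Type*} [CommRing S] (φ : R →+* S) (u : R) (M : Matrix (Fin 2) (Fin 2) R)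
    (i : Fin 3) : φ (coord u M i) = coord (φ u) (φ.mapMatrix M) i := by
  fin_cases i <;> simp [coord]

theorem qform_map {S : Type*} [CommRing S] (φ : R →+* S) (v : Fin 3 → R) :
    φ (qform v) = qform fun i => φ (v i) := by
  simp [qform]

theorem qform_coord {u : R} (hu : 2 * u = 1) (M : Matrix (Fin 2) (Fin 2) R) :
    qform (coord u M) = (u * M.trace) * (u * M.trace) - M.det := by
  simp only [qform, coord, Matrix.trace_fin_two, Matrix.det_fin_two, Matrix.cons_val_zero,
    Matrix.cons_val_one, Matrix.cons_val]
  linear_combination (-(M 0 0 * M 1 1) * (2 * u + 1)) * hu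

/-- Commuting matrices have proportional coordinates. -/
theorem coord_cross {u : R} {M N : Matrix (Fin 2) (Fin 2) R} (h : M * N = N * M) (i k : Fin 3) :
    coord u M i * coord u N k = coord u M k * coord u N i := by
  have e : ∀ a b, (M * N) a b = (N * M) a b := fun a b => by rw [h]
  have h00 := e 0 0
  have h01 := e 0 1
  have h10 := e 1 0
  simp only [Matrix.mul_apply, Fin.sum_univ_two] at h00 h01 h10
  fin_cases i <;> fin_cases k <;>
    simp only [coord, Fin.zero_eta, Fin.mk_one, Fin.reduceFinMk, Matrix.cons_val_zero,
      Matrix.cons_val_one, Matrix.cons_val]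
  · linear_combination u * h01
  · linear_combination -u * h10
  · linear_combination -u * h01
  · linear_combination h00
  · linear_combination u * h10
  · linear_combination -h00

/-- Cayley–Hamilton for two by two matrices. -/
theorem sq_eq_trace_smul_sub (M : Matrix (Fin 2) (Fin 2) R) :
    M * M = M.trace • M - M.det • (1 : Matrix (Fin 2) (Fin 2) R) := by
  ext i j
  fin_cases i <;> fin_cases j <;>
    simp [Matrix.mul_apply, Fin.sum_univ_two, Matrix.trace_fin_two, Matrix.det_fin_two] <;> ring

theorem pow_eq_add_smul {z z' : R} {N : Matrix (Fin 2) (Fin 2) R} (htr : N.trace = z + z')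
    (hdet : N.det = z * z') (n : ℕ) :
    (z - z') • N ^ n = (z ^ n - z' ^ n) • N -
      (z * z' ^ n - z' * z ^ n) • (-1 : Matrix (Fin 2) (Fin 2) R) := by
  induction n with
  | zero =>
    simp only [pow_zero, mul_one, sub_self, zero_smul, zero_sub, smul_neg, neg_neg]
  | succ n ih =>
    rw [pow_succ, ← smul_mul_assoc, ih, sub_mul, smul_mul_assoc, smul_mul_assoc, neg_one_mul,
      sq_eq_trace_smul_sub, htr, hdet]
    ext i j
    simp only [Matrix.sub_apply, Matrix.smul_apply, smul_eq_mul, Matrix.neg_apply]
    ring

/-- On a principal series point the images of Frobenius and inertia commute. -/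
theorem commute_of_principal [IsDomain R] {m q : ℕ} {z z' : R} {M N : Matrix (Fin 2) (Fin 2) R}
    (htr : N.trace = z + z') (hdet : N.det = 1) (hzz : z * z' = 1) (hz : z ^ m = 1)
    (hne : z ≠ z') (hq : q % m = 1) (hconj : M * N = N ^ q * M) : M * N = N * M := by
  have hz' : z' ^ m = 1 := by
    have := congrArg (· ^ m) hzz
    simpa [mul_pow, hz] using this
  have e1 : z ^ q = z := by
    rw [← Nat.div_add_mod q m, pow_add, pow_mul, hz, one_pow, one_mul, hq, pow_one]
  have e2 : z' ^ q = z' := by
    rw [← Nat.div_add_mod q m, pow_add, pow_mul, hz', one_pow, one_mul, hq, pow_one]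
  have h := pow_eq_add_smul htr (by rw [hdet, hzz]) q
  rw [e1, e2, mul_comm z' z, sub_self, zero_smul, sub_zero] at h
  have hN : N ^ q = N := smul_right_injective _ (sub_ne_zero.mpr hne) h
  rwa [hN] at hconj

end FLTAgent.LevelLowering
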