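import Fermat.Agent.MazurStep.TameInertia
import Fermat.Agent.MazurStep.Ramification
import Fermat.Agent.GaloisAttach.Cyclotomic
import Mathlib.Data.Int.GCD

/-!
# Tame generators of inertia at `r`

At a finite level the prime-to-`r` part of inertia at `r` is cyclic and Frobenius acts on it by
`r`-th powers.  For `p ≠ r` an inertia element `τ` moving a `p`-th root of `r` generates the
image of inertia in every finite group where this image has `p`-power exponent (`tame_generator`).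
Used by level lowering, modularity lifting and the Taylor–Wiles primes.
-/

set_option autoImplicit false

noncomputable section

open scoped Pointwise NumberField IntermediateField

namespace FLTAgent.LevelLowering

open FLTAgent.Density FLTAgent.MazurStep

/-- Some inertia element at `r` moves a `p`-th root of `r`. -/
theorem exists_tame_element {p r : ℕ} (hp : p.Prime) (hr : r.Prime)
    {A : ValuationSubring Qbar} (hA : A.LiesOverPrime r) :
    ∃ x : Qbar, x ^ p = (r : Qbar) ∧ ∃ τ ∈ A.inertiaSubgroupIn ℚ, τ x ≠ x := by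
  obtain ⟨β, hβ⟩ := IsAlgClosed.exists_pow_nat_eq (r : Qbar) hp.pos
  by_contra h
  push Not at h
  refine not_fixed_radical hr hp.two_le (β := β) (n := 1) ?_ (by simp [hβ]) fun B hB σ hσ => ?_
  · exact_mod_cast fun hd : (r : ℤ) ∣ 1 => hr.not_dvd_one (by exact_mod_cast hd)
  · obtain ⟨g, rfl⟩ := exists_smul_eq_of_liesOverPrime hr hB hA
    have hgβ : (g β) ^ p = (r : Qbar) := by rw [← map_pow, hβ, map_natCast]
    have := h (g β) hgβ _ (mem_inertiaSubgroupIn_smul hσ g)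
    simp only [AlgEquiv.mul_apply] at this
    rw [show g⁻¹ (g β) = β by rw [← AlgEquiv.mul_apply, inv_mul_cancel, AlgEquiv.one_apply]] at this
    exact g.injective this

theorem exists_int_mul_mod {p : ℕ} (hp : p.Prime) {j : ℤ} (hj : ¬ (p : ℤ) ∣ j) (k : ℕ) :
    ∃ i t : ℤ, i * j = 1 + t * (p : ℤ) ^ k := by
  obtain ⟨a, b, hab⟩ := ((Nat.prime_iff_prime_int.mp hp).coprime_iff_not_dvd.mpr hj).pow_left
    (m := k)
  exact ⟨b, -a, by linear_combination hab⟩

/-- An inertia element moving a `p`-th root of `r` generates the image of inertia in a finite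
group in which that image has `p`-power exponent, and Frobenius conjugates it to its `r`-th
power. -/
theorem tame_generator {p r : ℕ} (hp : p.Prime) (hr : r.Prime) (hrp : r ≠ p)
    {A : ValuationSubring Qbar} (hA : A.LiesOverPrime r) {x : Qbar} (hx : x ^ p = (r : Qbar))
    {τ : GalQ} (hτ : τ ∈ A.inertiaSubgroupIn ℚ) (hτx : τ x ≠ x)
    {M : Type} [Group M] (π : GalQ →* M) (L₀ : IntermediateField ℚ Qbar)
    [FiniteDimensional ℚ L₀] (hL₀ : ∀ σ : GalQ, (∀ y ∈ L₀, σ y = y) → π σ = 1) (k : ℕ)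
    (hk : ∀ σ ∈ A.inertiaSubgroupIn ℚ, π σ ^ p ^ k = 1) :
    (∀ σ ∈ A.inertiaSubgroupIn ℚ, ∃ j : ℤ, π σ = π τ ^ j) ∧
      ∀ Φ : GalQ, A.IsFrobeniusAt Φ r → π (Φ * τ * Φ⁻¹) = π τ ^ r := by
  classical
  have : Fact p.Prime := ⟨hp⟩
  have hxint : IsIntegral ℚ x := (Algebra.IsAlgebraic.isAlgebraic x).isIntegral
  have : FiniteDimensional ℚ ℚ⟮x⟯ := IntermediateField.adjoin.finiteDimensional hxint
  let L := IntermediateField.normalClosure ℚ ↥(L₀ ⊔ ℚ⟮x⟯) Qbar
  have : FiniteDimensional ℚ L := normalClosure.is_finiteDimensional ℚ _ Qbar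
  have : IsGalois ℚ L := IsGalois.normalClosure ℚ _ Qbar
  have hle : L₀ ⊔ ℚ⟮x⟯ ≤ L := IntermediateField.le_normalClosure _
  have hxL : x ∈ L := hle (le_sup_right (a := L₀) (IntermediateField.mem_adjoin_simple_self ℚ x))
  obtain ⟨K, _, _, _, φ, hker, hconj⟩ := exists_tame_character hr hA L
  have hx0 : x ≠ 0 := fun h => by
    rw [h, zero_pow hp.ne_zero] at hx
    exact hr.ne_zero (by exact_mod_cast hx.symm)
  -- inertia acts on `x` through `p`-th roots of unity
  have hmu : ∀ σ : GalQ, ∃ μ, μ ^ p = 1 ∧ σ x = μ * x := fun σ =>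
    ⟨σ x / x,
      by rw [div_pow, ← map_pow, hx, map_natCast, div_self (Nat.cast_ne_zero.mpr hr.ne_zero)],
      (div_mul_cancel₀ _ hx0).symm⟩
  have hpow : ∀ σ ∈ A.inertiaSubgroupIn ℚ, (σ ^ p : GalQ) x = x := by
    intro σ hσ
    obtain ⟨μ, hμ, hσx⟩ := hmu σ
    have hσμ : σ μ = μ := GaloisAttach.inertia_apply_rootOfUnity hr hA hσ
      (fun h => hrp ((Nat.prime_dvd_prime_iff_eq hr hp).mp h)) hμ
    have key : ∀ n : ℕ, (σ ^ n : GalQ) x = μ ^ n * x := by
      intro n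
      induction n with
      | zero => simp
      | succ n ih =>
        rw [pow_succ', AlgEquiv.mul_apply, ih, map_mul, map_pow, hσμ, hσx]
        ring
    rw [key, hμ, one_mul]
  -- the kernel of the tame character
  have hkill : ∀ σ : A.inertiaSubgroupIn ℚ, φ σ = 1 → π σ = 1 ∧ (σ : GalQ) x = x := by
    intro σ hσ
    obtain ⟨v, hv⟩ := hker σ hσ
    have hrp' : IsCoprime ((r : ℤ) ^ v) (p : ℤ) :=
      (Int.isCoprime_iff_nat_coprime.2 (by simpa using (Nat.coprime_primes hr hp).2 hrp)).pow_left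
    refine ⟨?_, ?_⟩
    · obtain ⟨s, t, hst⟩ := hrp'.pow_right (n := k)
      have h1 : π σ ^ ((r : ℤ) ^ v) = 1 := by
        rw [← Nat.cast_pow, zpow_natCast, ← map_pow]
        exact hL₀ _ fun y hy => hv y (hle (le_sup_left (b := ℚ⟮x⟯) hy))
      have h2 : π σ ^ ((p : ℤ) ^ k) = 1 := by
        rw [← Nat.cast_pow, zpow_natCast]; exact hk σ σ.2
      have : π σ ^ (s * (r : ℤ) ^ v + t * (p : ℤ) ^ k) = 1 := by
        rw [zpow_add, mul_comm s, mul_comm t, zpow_mul, zpow_mul, h1, h2, one_zpow, one_zpow,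
          one_mul]
      rwa [hst, zpow_one] at this
    · obtain ⟨s, t, hst⟩ := hrp'
      let S : Subgroup GalQ := MulAction.stabilizer GalQ x
      have h1 : (σ : GalQ) ^ ((r : ℤ) ^ v) ∈ S := by
        rw [← Nat.cast_pow, zpow_natCast]; exact hv x hxL
      have h2 : (σ : GalQ) ^ (p : ℤ) ∈ S := by
        rw [zpow_natCast]; exact hpow σ σ.2
      have : (σ : GalQ) ^ (s * (r : ℤ) ^ v + t * (p : ℤ)) ∈ S := by
        rw [zpow_add, mul_comm s, mul_comm t, zpow_mul, zpow_mul]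
        exact mul_mem (zpow_mem h1 s) (zpow_mem h2 t)
      rwa [hst, zpow_one] at this
  have : IsCyclic φ.range := inferInstance
  obtain ⟨⟨_, g, rfl⟩, hg⟩ := IsCyclic.exists_generator (α := φ.range)
  have hgen : ∀ σ : A.inertiaSubgroupIn ℚ, ∃ j : ℤ,
      π σ = π g ^ j ∧ ((g : GalQ) ^ j) x = (σ : GalQ) x := by
    intro σ
    obtain ⟨j, hj⟩ := hg ⟨φ σ, ⟨σ, rfl⟩⟩
    have hj' : φ (g ^ j) = φ σ := by rw [map_zpow]; exact congrArg Subtype.val hj
    obtain ⟨h1, h2⟩ := hkill ((g ^ j)⁻¹ * σ) (by rw [map_mul, map_inv, hj', inv_mul_cancel])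
    simp only [Subgroup.coe_mul, Subgroup.coe_inv, SubgroupClass.coe_zpow, map_mul, map_inv,
      map_zpow] at h1 h2
    refine ⟨j, eq_of_inv_mul_eq_one h1 |>.symm, ?_⟩
    have h3 := congrArg ((g : GalQ) ^ j : GalQ) h2
    rw [← AlgEquiv.mul_apply, mul_inv_cancel_left] at h3
    exact h3.symm
  obtain ⟨j₀, hj₀, hj₀x⟩ := hgen ⟨τ, hτ⟩
  have hpj : ¬ (p : ℤ) ∣ j₀ := by
    rintro ⟨c, rfl⟩
    refine hτx ?_
    rw [← hj₀x, zpow_mul, zpow_natCast]
    exact (zpow_mem (show (g : GalQ) ^ p ∈ MulAction.stabilizer GalQ x from hpow g g.2) c)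
  obtain ⟨i, t, hit⟩ := exists_int_mul_mod hp hpj k
  have hgk : π g ^ ((p : ℤ) ^ k) = 1 := by
    rw [← Nat.cast_pow, zpow_natCast]; exact hk g g.2
  have hgτ : π g = π τ ^ i := by
    rw [show π τ = π g ^ j₀ from hj₀, ← zpow_mul, mul_comm, hit, zpow_add, zpow_one, mul_comm t,
      zpow_mul, hgk, one_zpow, mul_one]
  refine ⟨fun σ hσ => ?_, fun Φ hΦ => ?_⟩
  · obtain ⟨j, hj, -⟩ := hgen ⟨σ, hσ⟩
    exact ⟨i * j, by rw [show π σ = π g ^ j from hj, hgτ, zpow_mul]⟩
  · have hΦτ : Φ * τ * Φ⁻¹ ∈ A.inertiaSubgroupIn ℚ := by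
      have h := mem_inertiaSubgroupIn_smul hτ Φ
      rwa [show Φ • A = A from (isFrobeniusAt_iff.1 hΦ).1] at h
    have h := hconj Φ hΦ ⟨τ, hτ⟩ ⟨_, hΦτ⟩ rfl
    rw [← map_pow] at h
    obtain ⟨h1, -⟩ := hkill ((⟨τ, hτ⟩ ^ r)⁻¹ * ⟨_, hΦτ⟩) (by
      rw [map_mul, map_inv, h, inv_mul_cancel])
    simp only [Subgroup.coe_mul, Subgroup.coe_inv, SubmonoidClass.coe_pow, map_inv, map_pow,
      map_mul] at h1
    rw [map_mul, map_mul, map_inv]
    exact (eq_of_inv_mul_eq_one h1).symm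

end FLTAgent.LevelLowering
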