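import Fermat.Agent.LevelLowering.SiteIdentities
import Mathlib.Algebra.Polynomial.Monic
import Mathlib.Algebra.Polynomial.Degree.Lemmas
import Mathlib.RingTheory.Ideal.Quotient.Basic

/-!
# The polynomial killing `q(B)` at principal series points

At such a point inertia has eigenvalues `z`, `z⁻¹` for a nontrivial `m`-th root of unity `z`, so
`q(B) = ((z - z⁻¹) / 2) ^ 2` is a root of an explicit polynomial `sitePoly` congruent to
`X ^ (m - 1)` (`eval₂_sitePoly_qform`).  It is one of the constants of the patching system.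
-/

set_option autoImplicit false

noncomputable section

namespace FLTAgent.LevelLowering

open Polynomial

variable {O : Type*} [CommRing O]

/-- The possible values of `q(B)`. -/
def siteVal (u ζ : O) (m j : ℕ) : O := (u * (ζ ^ j - ζ ^ (m - j))) * (u * (ζ ^ j - ζ ^ (m - j)))

/-- The polynomial with roots the possible values of `q(B)`. -/
def sitePoly (u ζ : O) (m : ℕ) : O[X] := ∏ j ∈ Finset.Ico 1 m, (X - C (siteVal u ζ m j))

theorem sitePoly_monic (u ζ : O) (m : ℕ) : (sitePoly u ζ m).Monic :=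
  monic_prod_of_monic _ _ fun _ _ => monic_X_sub_C _

theorem sitePoly_coeff_zero_ne_zero [IsDomain O] {u ζ : O} {m : ℕ} (hu : 2 * u = 1)
    (hm : Odd m) (hζ : IsPrimitiveRoot ζ m) : (sitePoly u ζ m).coeff 0 ≠ 0 := by
  rw [coeff_zero_eq_eval_zero, sitePoly, eval_prod, Finset.prod_ne_zero_iff]
  intro j hj
  obtain ⟨hj1, hj2⟩ := Finset.mem_Ico.mp hj
  simp only [eval_sub, eval_X, eval_C, zero_sub, ne_eq, neg_eq_zero, siteVal, mul_self_eq_zero,
    mul_eq_zero, sub_eq_zero]
  rintro (h | h)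
  · exact one_ne_zero (by rw [← hu, h, mul_zero])
  · have := hζ.pow_inj hj2 (by omega) h
    obtain ⟨k, rfl⟩ := hm
    omega

theorem dvd_sitePoly_coeff {u ζ lam : O} (hζ : lam ∣ ζ - 1) {m k : ℕ}
    (hk : k < (sitePoly u ζ m).natDegree) : lam ∣ (sitePoly u ζ m).coeff k := by
  rw [← Ideal.mem_span_singleton, ← Ideal.Quotient.eq_zero_iff_mem, ← coeff_map]
  have h1 : Ideal.Quotient.mk (Ideal.span {lam}) ζ = 1 := by
    rw [← map_one (Ideal.Quotient.mk (Ideal.span {lam})), Ideal.Quotient.eq,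
      Ideal.mem_span_singleton]
    exact hζ
  have hmap : (sitePoly u ζ m).map (Ideal.Quotient.mk (Ideal.span {lam})) =
      X ^ (Finset.Ico 1 m).card := by
    rw [sitePoly, Polynomial.map_prod, ← Finset.prod_const]
    refine Finset.prod_congr rfl fun j _ => ?_
    simp [siteVal, h1]
  rw [hmap, coeff_X_pow, if_neg]
  intro h
  rcases subsingleton_or_nontrivial O with hO | hO
  · simp [Subsingleton.elim (sitePoly u ζ m) 0] at hk
  · rw [sitePoly, natDegree_prod_of_monic _ _ fun _ _ => monic_X_sub_C _] at hk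
    simp at hk h
    omega

/-- At a principal series point `q(B)` is a root of the polynomial. -/
theorem eval₂_sitePoly_qform {K : Type*} [CommRing K] [IsDomain K] (ι : O →+* K) {u ζ : O}
    {m : ℕ} (hu : 2 * u = 1) (hm : 0 < m) (hζ : IsPrimitiveRoot (ι ζ) m) {z z' : K}
    (hz : z ^ m = 1) (hz1 : z ≠ 1) (hzz : z * z' = 1) {N : Matrix (Fin 2) (Fin 2) K}
    (htr : N.trace = z + z') (hdet : N.det = 1) :
    (sitePoly u ζ m).eval₂ ι (qform (coord (ι u) N)) = 0 := by
  have : NeZero m := ⟨hm.ne'⟩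
  obtain ⟨j, hj, rfl⟩ := hζ.eq_pow_of_pow_eq_one hz
  have hj0 : j ≠ 0 := by rintro rfl; simp at hz1
  have hz' : z' = ι ζ ^ (m - j) := by
    have h : ι ζ ^ j * ι ζ ^ (m - j) = 1 := by
      rw [← pow_add, Nat.add_sub_cancel' hj.le, hζ.pow_eq_one]
    linear_combination -z' * h + ι ζ ^ (m - j) * hzz
  have hu' : 2 * ι u = 1 := by rw [← map_ofNat ι, ← map_mul, hu, map_one]
  rw [sitePoly, eval₂_finsetProd]
  refine Finset.prod_eq_zero (i := j) (Finset.mem_Ico.mpr ⟨Nat.pos_of_ne_zero hj0, hj⟩) ?_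
  rw [eval₂_sub, eval₂_X, eval₂_C, qform_coord hu', htr, hdet, siteVal]
  simp only [map_mul, map_sub, map_pow, ← hz']
  linear_combination (2 * ι u + 1) * hu' + 4 * ι u * ι u * hzz

end FLTAgent.LevelLowering
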