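import Mathlib.RingTheory.Ideal.HasGoingUp
import Mathlib.RingTheory.MvPowerSeries.Equiv
import Mathlib.RingTheory.KrullDimension.NonZeroDivisors
import Mathlib.RingTheory.KrullDimension.PID
import Mathlib.RingTheory.DiscreteValuationRing.Basic
import Mathlib.LinearAlgebra.Matrix.Charpoly.Coeff

/-!
# Dimension lemmas for the patched level lowering argument

An integral extension has at least the dimension of the base, `O⟦Y₁,…,Y_r⟧` has dimension at
least `r + 1`, and Cayley–Hamilton for matrices with entries in an ideal (`exists_pow_mem_map`).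
Used by `LevelLowering.PatchContradiction` and modularity lifting.
-/

set_option autoImplicit false

namespace FLTAgent.LevelLowering

open Polynomial

/-- An integral extension has at least the dimension of the base. -/
theorem ringKrullDim_le_of_isIntegral (R S : Type*) [CommRing R] [CommRing S] [Algebra R S]
    [Algebra.IsIntegral R S] [FaithfulSMul R S] : ringKrullDim R ≤ ringKrullDim S := by
  rw [ringKrullDim, ringKrullDim, Order.krullDim]
  refine iSup_le fun l => ?_
  have := l.head.isPrime
  obtain ⟨⟨P, hP, hPl⟩⟩ := Ideal.nonempty_primesOver (S := S) l.head.asIdeal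
  have := hP
  have := hPl
  obtain ⟨L, hL, -, -⟩ := Ideal.exists_ltSeries_of_hasGoingUp l P
  calc (l.length : WithBot ℕ∞) = L.length := by rw [hL]
    _ ≤ Order.krullDim (PrimeSpectrum S) := Order.LTSeries.length_le_krullDim L

/-- `O⟦Y₁,…,Yᵣ⟧` has dimension at least `r + 1`. -/
theorem le_ringKrullDim_mvPowerSeries (O : Type*) [CommRing O] [IsDomain O]
    [IsDiscreteValuationRing O] (r : ℕ) :
    ((r + 1 : ℕ) : WithBot ℕ∞) ≤ ringKrullDim (MvPowerSeries (Fin r) O) := by
  induction r with
  | zero =>
    rw [ringKrullDim_eq_of_ringEquiv (MvPowerSeries.isEmptyEquiv (Fin 0) O).toRingEquiv,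
      IsPrincipalIdealRing.ringKrullDim_eq_one O (IsDiscreteValuationRing.not_isField O)]
    exact le_rfl
  | succ r ih =>
    rw [ringKrullDim_eq_of_ringEquiv (MvPowerSeries.finSuccEquiv O r).toRingEquiv]
    refine le_trans ?_ ringKrullDim_succ_le_ringKrullDim_powerseries
    push_cast at ih ⊢
    gcongr

/-- Cayley–Hamilton: a matrix with entries in `I` has a power in `I` times the algebra it
generates. -/
theorem exists_pow_mem_map {S n : Type*} [CommRing S] [Fintype n] [DecidableEq n] {C : Type*}
    [CommRing C] [Algebra S C] (φ : C →ₐ[S] Matrix n n S) (hφ : Function.Injective φ) (I : Ideal S)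
    (v : C) (hv : ∀ i j, φ v i j ∈ I) : ∃ k : ℕ, v ^ k ∈ I.map (algebraMap S C) := by
  classical
  set p := (φ v).charpoly with hp
  have hcp : p.map (Ideal.Quotient.mk I) = X ^ Fintype.card n := by
    rw [hp, ← Matrix.charpoly_map]
    have : (φ v).map (Ideal.Quotient.mk I) = 0 := by
      ext i j
      simp [Ideal.Quotient.eq_zero_iff_mem.mpr (hv i j)]
    rw [this]
    simp [Matrix.charpoly_zero]
  refine ⟨Fintype.card n, ?_⟩
  have hmonic : p.Monic := Matrix.charpoly_monic _
  have hzero : aeval v p = 0 := by
    apply hφ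
    rw [← Polynomial.aeval_algHom_apply, map_zero, hp]
    exact Matrix.aeval_self_charpoly _
  have hcoeff : ∀ i, (p - X ^ Fintype.card n).coeff i ∈ I := by
    intro i
    rw [← Ideal.Quotient.eq_zero_iff_mem, ← Polynomial.coeff_map, Polynomial.map_sub, hcp,
      Polynomial.map_pow, Polynomial.map_X, sub_self, Polynomial.coeff_zero]
  have e : v ^ Fintype.card n = - aeval v (p - X ^ Fintype.card n) := by
    rw [map_sub, hzero, zero_sub, neg_neg, map_pow, aeval_X]
  rw [e]
  refine neg_mem ?_
  rw [aeval_eq_sum_range]
  refine Ideal.sum_mem _ fun i _ => ?_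
  rw [Algebra.smul_def]
  exact Ideal.mul_mem_right _ _ (Ideal.mem_map_of_mem _ (hcoeff i))

end FLTAgent.LevelLowering
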