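import Fermat.Agent.LevelLowering.Core.Final
import Fermat.Agent.SemistableFinals.PrincipleMain
import Fermat.Agent.LevelLowering.Outer.Frey

/-!
# Level lowering at residually unramified primes

Combines the core, Mazur's principle and the reduction of the outer argument:
`residuallyModular_div` lowers the level of a residually modular semistable model (S38) and
`freyPackage_exists_lower` that of a Frey package (S43).
-/

set_option autoImplicit false

noncomputable section

open WeierstrassCurve WeierstrassCurve.Affine WeierstrassCurve.Affine.Point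
open scoped WeierstrassCurve.Affine

namespace FLTAgent.LevelLowering

/-- Lowering at a residually unramified prime for semistable models. -/
theorem residuallyModular_div (p : ℕ) [Fact p.Prime] (hp2 : p ≠ 2)
    (W : WeierstrassCurve ℤ) (hΔ : W.Δ ≠ 0) (hW : W.IsSemistableModel)
    (hcard₁ : Nat.card (Submodule.torsionBy ℤ
      ((W.map (Int.castRingHom ℚ))⁄(AlgebraicClosure ℚ)).Point p) = p ^ 2)
    (hker : GaloisFactorsThroughFiniteLevel
      (WeierstrassCurve.Affine.Point.galoisRepModuleEnd (K := AlgebraicClosure ℚ) ℚ
        (W.map (Int.castRingHom ℚ)) p))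
    (hirr : W.ModRepIsIrreducible p) (M q : ℕ) (hq : q.Prime) (hqp : q ≠ p)
    (hqM : q ∣ M) (hM : Squarefree M)
    (hunr : ((W.map (Int.castRingHom ℚ)).residualGaloisRepOf p hcard₁ hker).IsUnramifiedAt q)
    (hres : W.IsResiduallyModularOfLevel p M) :
    W.IsResiduallyModularOfLevel p (M / q) :=
  residuallyModular_div_of_core p hp2 W hΔ hW hcard₁ hker hirr (lowerCore p hp2)
    (SemistableFinals.mazurPrincipleInput hp2 hΔ hW hirr) M q hq hqp hqM hM hunr hres

/-- Lowering at a residually unramified prime for Frey packages. -/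
theorem freyPackage_exists_lower (P : FreyPackage) {N q : ℕ}
    (hcond : P.IsConductorLevel N) (hq : q.Prime) (hqp : q ≠ P.p) (hqN : q ∣ N)
    (hirr : GaloisRepIsIrreducible (K := AlgebraicClosure ℚ) ℚ P.freyCurve P.p)
    (hmod : P.ModularRepOfLevel N) (hunr : P.GaloisRepUnramifiedAt q) :
    ∃ M : ℕ, M ∣ N ∧ ¬ q ∣ M ∧ P.ModularRepOfLevel M := by
  have : Fact P.p.Prime := ⟨P.pp⟩
  have := GaloisAttach.freyCurve_isElliptic P
  have hp2 : P.p ≠ 2 := fun h => by have := P.hp5; omega
  exact freyPackage_exists_lower_of_core P hcond hq hqp hqN hirr hmod hunr (lowerCore P.p hp2)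
    (SemistableFinals.mazurPrincipleInput hp2 (Endgame.freyCurveInt_Δ_ne_zero P)
      (Endgame.freyCurveInt_isSemistableModel P)
      (LevelRaising.modRepIsIrreducible_of_isIntegralModelOf
        (Endgame.freyCurveInt_isIntegralModelOf P) hirr).1)

end FLTAgent.LevelLowering

end
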